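import Fermat.Agent.Superabundant.Basic
import Fermat.Agent.Root.SummaryAbundant
import Fermat.Agent.Root.SummaryTotientAlmostAll

/-!
# One step of the aliquot sequence

If `M ! ∣ σ n`, the divisors `d ≤ M` of `n` divide `s n = σ n - n`, so `σ (s n) / s n` is at least
`∑ 1 / d` over them. As `M ! ∣ σ n` for almost all `n` and the omitted tail of `σ n / n` is `1 / M`
on average, `σ (s n) / s n ≥ σ n / n - ε` for almost all `n` (Erdős 1976). An amicable pair has
one member abundant and the other deficient, so it has density zero by Davenport's theorem.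
-/

set_option autoImplicit false

noncomputable section

namespace FA.AliquotDensity

open Finset Filter
open FA.Superabundant (abundancy)
open scoped Topology Classical ArithmeticFunction.sigma Nat

/-- `s n`, the sum of the proper divisors. -/
abbrev aliquotSum (n : ℕ) : ℕ := ∑ d ∈ n.properDivisors, d

theorem abundancy_eq_sum_inv (n : ℕ) : abundancy n = ∑ d ∈ n.divisors, (d : ℝ)⁻¹ := by
  rcases eq_or_ne n 0 with rfl | hn
  · simp [abundancy]
  rw [abundancy, ← Nat.sum_div_divisors n (fun d => (d : ℝ)), sum_div]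
  refine sum_congr rfl fun d hd => ?_
  have hd0 : (d : ℝ) ≠ 0 := Nat.cast_ne_zero.2 (Nat.pos_of_mem_divisors hd).ne'
  have hn0 : (n : ℝ) ≠ 0 := Nat.cast_ne_zero.2 hn
  rw [Nat.cast_div (Nat.dvd_of_mem_divisors hd) hd0]
  field_simp

/-- The part of `σ n / n` from the divisors above `M`. -/
def tail (M n : ℕ) : ℝ := ∑ d ∈ n.divisors.filter (M < ·), (d : ℝ)⁻¹

theorem sum_tail_le {M : ℕ} (hM : 0 < M) (N : ℕ) :
    ∑ n ∈ Icc 1 N, tail M n ≤ (N : ℝ) / M := by
  rcases le_or_gt N M with hNM | hNM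
  · refine le_trans (le_of_eq (sum_eq_zero fun n hn => sum_eq_zero fun d hd => ?_)) (by positivity)
    obtain ⟨hd, hMd⟩ := mem_filter.1 hd
    have := Nat.divisor_le hd
    have := (mem_Icc.1 hn).2
    omega
  calc ∑ n ∈ Icc 1 N, tail M n
      = ∑ n ∈ Icc 1 N, ∑ d ∈ (Ioc M N).filter (· ∣ n), (d : ℝ)⁻¹ := by
        refine sum_congr rfl fun n hn => sum_congr ?_ fun _ _ => rfl
        rw [mem_Icc] at hn
        ext d
        simp only [mem_filter, Nat.mem_divisors, mem_Ioc]
        exact ⟨fun h => ⟨⟨h.2, (Nat.le_of_dvd hn.1 h.1.1).trans hn.2⟩, h.1.1⟩,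
          fun h => ⟨⟨h.2, by omega⟩, h.1.1⟩⟩
    _ = ∑ d ∈ Ioc M N, ((N / d : ℕ) : ℝ) * (d : ℝ)⁻¹ := by
        simp only [sum_filter]
        rw [sum_comm]
        refine sum_congr rfl fun d _ => ?_
        rw [← sum_filter, sum_const, nsmul_eq_mul, ← Nat.Ioc_filter_dvd_card_eq_div N d]
        congr 2
    _ ≤ ∑ d ∈ Ioc M N, (N : ℝ) * ((d : ℝ) ^ 2)⁻¹ := by
        refine sum_le_sum fun d _ => ?_
        rw [sq, mul_inv, ← mul_assoc, ← div_eq_mul_inv (N : ℝ)]
        exact mul_le_mul_of_nonneg_right Nat.cast_div_le (by positivity)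
    _ ≤ N * ((M : ℝ)⁻¹ - (N : ℝ)⁻¹) := by
        rw [← mul_sum]
        exact mul_le_mul_of_nonneg_left (sum_Ioc_inv_sq_le_sub hM.ne' hNM.le) (Nat.cast_nonneg N)
    _ ≤ (N : ℝ) / M := by
        rw [mul_sub, ← div_eq_mul_inv]
        exact sub_le_self _ (by positivity)

theorem card_le_tail {M : ℕ} (hM : 0 < M) {ε : ℝ} (hε : 0 < ε) (N : ℕ) :
    (#((Icc 1 N).filter fun n => ε ≤ tail M n) : ℝ) ≤ N / (M * ε) := by
  rw [← div_div, le_div_iff₀ hε, ← nsmul_eq_mul, ← sum_const]
  refine le_trans ?_ (sum_tail_le hM N)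
  exact (sum_le_sum fun n hn => (mem_filter.1 hn).2).trans
    (sum_le_sum_of_subset_of_nonneg (filter_subset _ _) fun n _ _ =>
      sum_nonneg fun d _ => by positivity)

theorem sigma_one_eq_aliquotSum_add (n : ℕ) : σ 1 n = aliquotSum n + n := by
  rw [ArithmeticFunction.sigma_one_apply, Nat.sum_divisors_eq_sum_properDivisors_add_self]

theorem abundancy_le_add_tail {M n : ℕ} (hn : 2 ≤ n) (h : M ! ∣ σ 1 n) :
    abundancy n ≤ abundancy (aliquotSum n) + tail M n := by
  have hs : aliquotSum n ≠ 0 := by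
    refine (sum_pos (fun d hd => Nat.pos_of_mem_properDivisors hd) ⟨1, ?_⟩).ne'
    exact Nat.one_mem_properDivisors_iff_one_lt.2 hn
  rw [abundancy_eq_sum_inv, abundancy_eq_sum_inv, tail,
    ← sum_filter_add_sum_filter_not n.divisors (fun d => d ≤ M)]
  refine add_le_add (sum_le_sum_of_subset_of_nonneg (fun d hd => ?_) fun d _ _ => by positivity)
    (le_of_eq (sum_congr (filter_congr fun d _ => not_le) fun _ _ => rfl))
  obtain ⟨hd, hdM⟩ := mem_filter.1 hd
  refine Nat.mem_divisors.2 ⟨?_, hs⟩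
  have h1 : d ∣ σ 1 n := (Nat.dvd_factorial (Nat.pos_of_mem_divisors hd) hdM).trans h
  rw [sigma_one_eq_aliquotSum_add] at h1
  exact (Nat.dvd_add_left (Nat.dvd_of_mem_divisors hd)).1 h1

theorem tendsto_card_not_dvd_sigma {m : ℕ} (hm : 0 < m) :
    Tendsto (fun N : ℕ => (#((Icc 1 N).filter fun n => ¬ m ∣ σ 1 n) : ℝ) / N) atTop (𝓝 0) := by
  have h := FA.Summary.sigma_dvd_almostAll (k := 1) hm odd_one
  refine squeeze_zero (fun N => by positivity) (fun N => ?_)
    (show Tendsto (fun N : ℕ => (Nat.card {n : ℕ // n < N ∧ ¬ m ∣ σ 1 n} : ℝ) / N + 1 / N)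
      atTop (𝓝 0) by simpa using h.add tendsto_one_div_atTop_nhds_zero_nat)
  rw [← add_div]
  refine div_le_div_of_nonneg_right ?_ (Nat.cast_nonneg N)
  rw [Nat.subtype_card ((range N).filter fun n => ¬ m ∣ σ 1 n) (fun x => by simp)]
  refine le_trans (Nat.cast_le.2 (card_le_card (t := insert N ((range N).filter fun n =>
    ¬ m ∣ σ 1 n)) fun n hn => ?_)) ((Nat.cast_le.2 (card_insert_le _ _)).trans (by simp))
  rw [mem_filter, mem_Icc] at hn
  rcases eq_or_lt_of_le hn.1.2 with h' | h'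
  · exact mem_insert.2 (Or.inl h')
  · exact mem_insert_of_mem (mem_filter.2 ⟨mem_range.2 h', hn.2⟩)

/-- **Erdős 1976: `σ (s n) / s n ≥ σ n / n - ε` for almost all `n`.** -/
theorem tendsto_step {ε : ℝ} (hε : 0 < ε) :
    Tendsto (fun N : ℕ => (#((Icc 1 N).filter fun n =>
      abundancy (aliquotSum n) + ε < abundancy n) : ℝ) / N) atTop (𝓝 0) := by
  refine tendsto_order.2 ⟨fun a ha => Eventually.of_forall fun N => ha.trans_le (by positivity),
    fun δ hδ => ?_⟩
  obtain ⟨M, hM⟩ : ∃ M : ℕ, 2 / (ε * δ) < M := exists_nat_gt _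
  have hM0 : 0 < M := by
    have : (0 : ℝ) < M := lt_trans (by positivity) hM
    exact_mod_cast this
  have hMr : 1 / (M * ε) < δ / 2 := by
    rw [div_lt_div_iff₀ (by positivity) two_pos]
    rw [div_lt_iff₀ (by positivity)] at hM
    linarith
  filter_upwards [(tendsto_card_not_dvd_sigma (show 0 < M ! from M.factorial_pos)).eventually
    (eventually_lt_nhds (show 0 < δ / 4 by linarith)), eventually_gt_atTop 0,
    (tendsto_one_div_atTop_nhds_zero_nat (𝕜 := ℝ)).eventually
      (eventually_lt_nhds (show 0 < δ / 4 by linarith))] with N hN hN0 hN1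
  have hcard : #((Icc 1 N).filter fun n => abundancy (aliquotSum n) + ε < abundancy n) ≤
      #(insert 1 (((Icc 1 N).filter fun n => ¬ M ! ∣ σ 1 n) ∪
        (Icc 1 N).filter fun n => ε ≤ tail M n)) := by
    refine card_le_card fun n hn => ?_
    rw [mem_filter] at hn
    simp only [mem_insert, mem_union, mem_filter]
    by_contra hcon
    simp only [hn.1, true_and, not_or, not_not, not_le] at hcon
    have h2 : 2 ≤ n := by
      have := (mem_Icc.1 hn.1).1
      omega
    linarith [abundancy_le_add_tail h2 hcon.2.1, hn.2, hcon.2.2]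
  have h1 : (#((Icc 1 N).filter fun n => abundancy (aliquotSum n) + ε < abundancy n) : ℝ) ≤
      1 + #((Icc 1 N).filter fun n => ¬ M ! ∣ σ 1 n) + N / (M * ε) := by
    refine (Nat.cast_le.2 ((hcard.trans (card_insert_le _ _)).trans
      (Nat.add_le_add_right (card_union_le _ _) 1))).trans ?_
    push_cast
    linarith [card_le_tail hM0 hε N]
  refine lt_of_le_of_lt (div_le_div_of_nonneg_right h1 (Nat.cast_nonneg N)) ?_
  rw [add_div, add_div, div_right_comm, div_self (Nat.cast_ne_zero.2 hN0.ne')]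
  linarith

theorem abundant_iff {n : ℕ} (hn : 0 < n) : n.Abundant ↔ 2 < abundancy n := by
  rw [abundancy, lt_div_iff₀ (Nat.cast_pos.2 hn), ← Nat.cast_sum,
    Nat.sum_divisors_eq_sum_properDivisors_add_self, Nat.cast_add, Nat.Abundant,
    show (2 : ℝ) * n = n + n by ring, add_lt_add_iff_right, Nat.cast_lt]

/-- **Almost all abundant numbers have an abundant aliquot sum.** -/
theorem tendsto_abundant_not_abundant :
    Tendsto (fun N : ℕ => (#((Icc 1 N).filter fun n =>
      n.Abundant ∧ ¬ (aliquotSum n).Abundant) : ℝ) / N) atTop (𝓝 0) := by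
  obtain ⟨D, hD, -, hlim⟩ := FA.AdditiveDistribution.Summary.davenport
  refine tendsto_order.2 ⟨fun a ha => Eventually.of_forall fun N => ha.trans_le (by positivity),
    fun δ hδ => ?_⟩
  obtain ⟨r, hr, hr'⟩ := Metric.continuous_iff.1 hD 2 (δ / 4) (by linarith)
  have hDr := hr' (2 + r / 2) (by
    rw [Real.dist_eq, add_sub_cancel_left, abs_of_pos (half_pos hr)]; linarith)
  rw [Real.dist_eq, abs_lt] at hDr
  filter_upwards [(tendsto_step (show 0 < r / 4 by linarith)).eventually
      (eventually_lt_nhds (show 0 < δ / 4 by linarith)),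
    (hlim 2).eventually (eventually_lt_nhds (show D 2 < D 2 + δ / 4 by linarith)),
    (hlim (2 + r / 2)).eventually
      (eventually_gt_nhds (show D (2 + r / 2) - δ / 4 < D (2 + r / 2) by linarith))]
    with N h1 h2 h3
  have hcard : #((Icc 1 N).filter fun n => n.Abundant ∧ ¬ (aliquotSum n).Abundant) +
      #((Icc 1 N).filter fun n : ℕ => 2 + r / 2 ≤ (∑ d ∈ n.divisors, (d : ℝ)) / n) ≤
      #((Icc 1 N).filter fun n => abundancy (aliquotSum n) + r / 4 < abundancy n) +
      #((Icc 1 N).filter fun n : ℕ => 2 ≤ (∑ d ∈ n.divisors, (d : ℝ)) / n) := by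
    rw [← card_union_add_card_inter, ← card_union_add_card_inter
      ((Icc 1 N).filter fun n => abundancy (aliquotSum n) + r / 4 < abundancy n)]
    refine Nat.add_le_add (card_le_card fun n hn => ?_) (card_le_card fun n hn => ?_)
    · simp only [mem_union, mem_filter] at hn ⊢
      rcases hn with ⟨hI, hn, -⟩ | ⟨hI, hn⟩
      · exact Or.inr ⟨hI, ((abundant_iff (mem_Icc.1 hI).1).1 hn).le⟩
      · exact Or.inr ⟨hI, le_trans (by linarith) hn⟩
    · simp only [mem_inter, mem_filter] at hn ⊢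
      obtain ⟨⟨hI, hn, hs⟩, -, hn'⟩ := hn
      refine ⟨⟨hI, ?_⟩, hI, le_trans (by linarith) hn'⟩
      have h0 : 0 < aliquotSum n := (Nat.zero_le n).trans_lt hn
      have : abundancy (aliquotSum n) ≤ 2 := not_lt.1 fun h => hs ((abundant_iff h0).2 h)
      have hn'' : 2 + r / 2 ≤ abundancy n := hn'
      linarith
  have hcard' : (#((Icc 1 N).filter fun n => n.Abundant ∧ ¬ (aliquotSum n).Abundant) : ℝ) / N +
      (#((Icc 1 N).filter fun n : ℕ => 2 + r / 2 ≤ (∑ d ∈ n.divisors, (d : ℝ)) / n) : ℝ) / N ≤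
      (#((Icc 1 N).filter fun n => abundancy (aliquotSum n) + r / 4 < abundancy n) : ℝ) / N +
      (#((Icc 1 N).filter fun n : ℕ => 2 ≤ (∑ d ∈ n.divisors, (d : ℝ)) / n) : ℝ) / N := by
    rw [← add_div, ← add_div]
    exact div_le_div_of_nonneg_right (by exact_mod_cast hcard) (Nat.cast_nonneg N)
  linarith

/-- **Erdős 1955: the amicable numbers have density zero.** -/
theorem tendsto_amicable :
    Tendsto (fun N : ℕ => (#((Icc 1 N).filter fun n =>
      aliquotSum n ≠ n ∧ aliquotSum (aliquotSum n) = n) : ℝ) / N) atTop (𝓝 0) := by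
  refine squeeze_zero (fun N => by positivity) (fun N => ?_)
    (show Tendsto (fun N : ℕ => 2 * ((#((Icc 1 N).filter fun n =>
      n.Abundant ∧ ¬ (aliquotSum n).Abundant) : ℝ) / N)) atTop (𝓝 0) by
        simpa using tendsto_abundant_not_abundant.const_mul 2)
  rw [← mul_div_assoc]
  refine div_le_div_of_nonneg_right ?_ (Nat.cast_nonneg N)
  obtain ⟨S, hS⟩ : ∃ S, S = (Icc 1 N).filter fun n =>
    n.Abundant ∧ ¬ (aliquotSum n).Abundant := ⟨_, rfl⟩
  rw [← hS]
  obtain ⟨A, hA⟩ : ∃ A, A = (Icc 1 N).filter fun n =>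
    aliquotSum n ≠ n ∧ aliquotSum (aliquotSum n) = n := ⟨_, rfl⟩
  rw [← hA]
  have hsub : A ⊆ S ∪ S.image aliquotSum := by
    intro n hn
    rw [hA, mem_filter, mem_Icc] at hn
    obtain ⟨⟨hn1, hnN⟩, hne, hss⟩ := hn
    rw [mem_union, mem_image]
    rcases lt_or_gt_of_ne hne with hlt | hgt
    · refine Or.inr ⟨aliquotSum n, ?_, hss⟩
      have hpos : 0 < aliquotSum n := Nat.pos_of_ne_zero fun h0 => by
        rw [h0] at hss
        simp [aliquotSum] at hss
        omega
      rw [hS, mem_filter, mem_Icc]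
      refine ⟨⟨hpos, by omega⟩, ?_, ?_⟩
      · rw [Nat.Abundant]
        exact hlt.trans_eq hss.symm
      · rw [hss, Nat.Abundant]
        exact hlt.not_gt
    · refine Or.inl ?_
      rw [hS, mem_filter, mem_Icc, Nat.Abundant, Nat.Abundant]
      exact ⟨⟨hn1, hnN⟩, hgt, by rw [not_lt]; exact (le_of_eq hss).trans hgt.le⟩
  have h2 : #A ≤ 2 * #S := by
    have := (card_le_card hsub).trans (card_union_le _ _)
    have := card_image_le (s := S) (f := aliquotSum)
    omega
  exact_mod_cast h2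

end FA.AliquotDensity
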